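/-
LR node [AMALG], part 1 (definitions).

`Γ₀(N)[1/q]` as an explicit subgroup `lra_G N q` of `SL(2, ℚ)`, the two embeddings
`lra_i1`, `lra_i2 : Γ₀(N) → Γ₀(N)[1/q]` (entrywise cast, resp. cast followed by conjugation by
`diag(1, q)`), and the two maps `lra_incl`, `lra_beta : Γ₀(Nq) → Γ₀(N)` with
`lra_i1 ∘ lra_incl = lra_i2 ∘ lra_beta`.  Mathlib only.  Prefix `lra_`.
-/
import Mathlib

set_option autoImplicit false

open CongruenceSubgroup Matrix.SpecialLinearGroup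
open scoped MatrixGroups

namespace Fermat.Agent.LR

/-! ### `Γ₀` membership -/

theorem lra_dvd_of_mem {N : ℕ} {γ : SL(2, ℤ)} (hγ : γ ∈ Gamma0 N) : (N : ℤ) ∣ γ 1 0 :=
  (ZMod.intCast_zmod_eq_zero_iff_dvd _ _).mp (Gamma0_mem.mp hγ)

theorem lra_mem_of_dvd {N : ℕ} {γ : SL(2, ℤ)} (hγ : (N : ℤ) ∣ γ 1 0) : γ ∈ Gamma0 N :=
  Gamma0_mem.mpr ((ZMod.intCast_zmod_eq_zero_iff_dvd _ _).mpr hγ)

theorem lra_det (γ : SL(2, ℤ)) : γ 0 0 * γ 1 1 - γ 0 1 * γ 1 0 = 1 := by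
  have h := γ.2
  rw [Matrix.det_fin_two] at h
  exact h

theorem lra_detQ (g : SL(2, ℚ)) : g 0 0 * g 1 1 - g 0 1 * g 1 0 = 1 := by
  have h := g.2
  rw [Matrix.det_fin_two] at h
  exact h

/-! ### The group `Γ₀(N)[1/q]` -/

/-- `q ^ n • g` is an integral matrix whose lower-left entry is divisible by `N` -/
def lra_IsInt (N q n : ℕ) (g : SL(2, ℚ)) : Prop :=
  ∃ M : Matrix (Fin 2) (Fin 2) ℤ, (∀ i j, (q : ℚ) ^ n * g i j = (M i j : ℚ)) ∧ (N : ℤ) ∣ M 1 0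

theorem lra_IsInt_one (N q : ℕ) : lra_IsInt N q 0 1 := by
  refine ⟨1, ?_, ?_⟩
  · intro i j
    fin_cases i <;> fin_cases j <;> simp
  · simp

theorem lra_IsInt_mul {N q n m : ℕ} {g h : SL(2, ℚ)} (hg : lra_IsInt N q n g)
    (hh : lra_IsInt N q m h) : lra_IsInt N q (n + m) (g * h) := by
  obtain ⟨M, hM, hMN⟩ := hg
  obtain ⟨M', hM', hMN'⟩ := hh
  refine ⟨M * M', ?_, ?_⟩
  · intro i j
    rw [Matrix.SpecialLinearGroup.coe_mul, Matrix.mul_apply, Matrix.mul_apply, Fin.sum_univ_two,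
      Fin.sum_univ_two]
    push_cast
    rw [← hM i 0, ← hM i 1, ← hM' 0 j, ← hM' 1 j, pow_add]
    ring
  · rw [Matrix.mul_apply, Fin.sum_univ_two]
    exact dvd_add (Dvd.dvd.mul_right hMN _) (Dvd.dvd.mul_left hMN' _)

theorem lra_inv_apply (g : SL(2, ℚ)) :
    (g⁻¹ : SL(2, ℚ)) 0 0 = g 1 1 ∧ (g⁻¹ : SL(2, ℚ)) 0 1 = - g 0 1 ∧
    (g⁻¹ : SL(2, ℚ)) 1 0 = - g 1 0 ∧ (g⁻¹ : SL(2, ℚ)) 1 1 = g 0 0 := by
  rw [Matrix.SpecialLinearGroup.coe_inv, Matrix.adjugate_fin_two]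
  simp

theorem lra_IsInt_inv {N q n : ℕ} {g : SL(2, ℚ)} (hg : lra_IsInt N q n g) :
    lra_IsInt N q n g⁻¹ := by
  obtain ⟨M, hM, hMN⟩ := hg
  obtain ⟨h00, h01, h10, h11⟩ := lra_inv_apply g
  refine ⟨!![M 1 1, - M 0 1; - M 1 0, M 0 0], ?_, ?_⟩
  · intro i j
    fin_cases i <;> fin_cases j
    · simp only [Fin.zero_eta, Matrix.of_apply, Matrix.cons_val', Matrix.cons_val_zero,
        Matrix.cons_val_fin_one]
      rw [h00, hM 1 1]
    · simp only [Fin.zero_eta, Fin.mk_one, Matrix.of_apply, Matrix.cons_val', Matrix.cons_val_one,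
        Matrix.cons_val_zero, Matrix.cons_val_fin_one]
      rw [h01, mul_neg, hM 0 1]
      push_cast
      rfl
    · simp only [Fin.zero_eta, Fin.mk_one, Matrix.of_apply, Matrix.cons_val', Matrix.cons_val_one,
        Matrix.cons_val_zero, Matrix.cons_val_fin_one]
      rw [h10, mul_neg, hM 1 0]
      push_cast
      rfl
    · simp only [Fin.mk_one, Matrix.of_apply, Matrix.cons_val', Matrix.cons_val_one,
        Matrix.cons_val_fin_one]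
      rw [h11, hM 0 0]
  · show (N : ℤ) ∣ - M 1 0
    exact (dvd_neg).mpr hMN

/-- `Γ₀(N)[1/q]`: matrices in `SL(2, ℤ[1/q])` with lower-left entry in `N ℤ[1/q]` -/
def lra_G (N q : ℕ) : Subgroup SL(2, ℚ) where
  carrier := {g | ∃ n, lra_IsInt N q n g}
  mul_mem' := by
    rintro g h ⟨n, hg⟩ ⟨m, hh⟩
    exact ⟨n + m, lra_IsInt_mul hg hh⟩
  one_mem' := ⟨0, lra_IsInt_one N q⟩
  inv_mem' := by
    rintro g ⟨n, hg⟩
    exact ⟨n, lra_IsInt_inv hg⟩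

theorem lra_mem_G {N q : ℕ} {g : SL(2, ℚ)} : g ∈ lra_G N q ↔ ∃ n, lra_IsInt N q n g := Iff.rfl

/-! ### The two embeddings of `Γ₀(N)` -/

/-- entrywise cast `SL(2, ℤ) → SL(2, ℚ)` -/
def lra_cast : SL(2, ℤ) →* SL(2, ℚ) := Matrix.SpecialLinearGroup.map (Int.castRingHom ℚ)

theorem lra_cast_apply (γ : SL(2, ℤ)) (i j : Fin 2) : lra_cast γ i j = ((γ i j : ℤ) : ℚ) := by
  simp [lra_cast]

theorem lra_cast_injective : Function.Injective lra_cast := by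
  intro γ γ' h
  ext i j
  have h1 := congrArg (fun g : SL(2, ℚ) => g i j) h
  simp only [lra_cast_apply] at h1
  exact_mod_cast h1

theorem lra_mul_apply (g h : SL(2, ℚ)) (i j : Fin 2) :
    (g * h : SL(2, ℚ)) i j = g i 0 * h 0 j + g i 1 * h 1 j := by
  rw [Matrix.SpecialLinearGroup.coe_mul, Matrix.mul_apply, Fin.sum_univ_two]

/-- conjugation by `diag(1, q)` on `SL(2, ℚ)`: `[[a, b], [c, d]] ↦ [[a, b / q], [q c, d]]` -/
def lra_conjFun (q : ℕ) [Fact q.Prime] (g : SL(2, ℚ)) : SL(2, ℚ) :=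
  ⟨!![g 0 0, g 0 1 / q; q * g 1 0, g 1 1], by
    have hq : (q : ℚ) ≠ 0 := by exact_mod_cast (Fact.out : q.Prime).ne_zero
    have h := lra_detQ g
    rw [Matrix.det_fin_two_of]
    field_simp
    linarith⟩

theorem lra_conjFun_apply (q : ℕ) [Fact q.Prime] (g : SL(2, ℚ)) :
    lra_conjFun q g 0 0 = g 0 0 ∧ lra_conjFun q g 0 1 = g 0 1 / q ∧
    lra_conjFun q g 1 0 = q * g 1 0 ∧ lra_conjFun q g 1 1 = g 1 1 :=
  ⟨rfl, rfl, rfl, rfl⟩

/-- conjugation by `diag(1, q)` as a group homomorphism -/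
def lra_conj (q : ℕ) [Fact q.Prime] : SL(2, ℚ) →* SL(2, ℚ) where
  toFun := lra_conjFun q
  map_one' := by
    obtain ⟨h00, h01, h10, h11⟩ := lra_conjFun_apply q 1
    ext i j
    fin_cases i <;> fin_cases j
    · exact h00
    · simpa using h01
    · simpa using h10
    · exact h11
  map_mul' g h := by
    have hq : (q : ℚ) ≠ 0 := by exact_mod_cast (Fact.out : q.Prime).ne_zero
    obtain ⟨a00, a01, a10, a11⟩ := lra_conjFun_apply q (g * h)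
    obtain ⟨g00, g01, g10, g11⟩ := lra_conjFun_apply q g
    obtain ⟨h00, h01, h10, h11⟩ := lra_conjFun_apply q h
    ext i j
    fin_cases i <;> fin_cases j
    · show lra_conjFun q (g * h) 0 0 = (lra_conjFun q g * lra_conjFun q h : SL(2, ℚ)) 0 0
      rw [a00, lra_mul_apply, lra_mul_apply, g00, g01, h00, h10]
      field_simp
    · show lra_conjFun q (g * h) 0 1 = (lra_conjFun q g * lra_conjFun q h : SL(2, ℚ)) 0 1
      rw [a01, lra_mul_apply, lra_mul_apply, g00, g01, h01, h11]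
      field_simp
    · show lra_conjFun q (g * h) 1 0 = (lra_conjFun q g * lra_conjFun q h : SL(2, ℚ)) 1 0
      rw [a10, lra_mul_apply, lra_mul_apply, g10, g11, h00, h10]
      ring
    · show lra_conjFun q (g * h) 1 1 = (lra_conjFun q g * lra_conjFun q h : SL(2, ℚ)) 1 1
      rw [a11, lra_mul_apply, lra_mul_apply, g10, g11, h01, h11]
      field_simp

theorem lra_conj_apply (q : ℕ) [Fact q.Prime] (g : SL(2, ℚ)) :
    lra_conj q g 0 0 = g 0 0 ∧ lra_conj q g 0 1 = g 0 1 / q ∧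
    lra_conj q g 1 0 = q * g 1 0 ∧ lra_conj q g 1 1 = g 1 1 :=
  ⟨rfl, rfl, rfl, rfl⟩

/-- `Γ₀(N) → Γ₀(N)[1/q]`, entrywise cast -/
def lra_i1 (N q : ℕ) : Gamma0 N →* lra_G N q :=
  (lra_cast.comp (Gamma0 N).subtype).codRestrict (lra_G N q) fun g => by
    refine ⟨0, (g : SL(2, ℤ)).1, ?_, lra_dvd_of_mem g.2⟩
    intro i j
    rw [pow_zero, one_mul]
    exact lra_cast_apply _ i j

/-- `Γ₀(N) → Γ₀(N)[1/q]`, `[[a, b], [c, d]] ↦ [[a, b / q], [q c, d]]` -/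
def lra_i2 (N q : ℕ) [Fact q.Prime] : Gamma0 N →* lra_G N q :=
  ((lra_conj q).comp (lra_cast.comp (Gamma0 N).subtype)).codRestrict (lra_G N q) fun g => by
    have hq : (q : ℚ) ≠ 0 := by exact_mod_cast (Fact.out : q.Prime).ne_zero
    refine ⟨1, !![q * (g : SL(2, ℤ)) 0 0, (g : SL(2, ℤ)) 0 1;
      q * q * (g : SL(2, ℤ)) 1 0, q * (g : SL(2, ℤ)) 1 1], ?_, ?_⟩
    · intro i j
      fin_cases i <;> fin_cases j
      · show (q : ℚ) ^ 1 * lra_cast (g : SL(2, ℤ)) 0 0 = ((q * (g : SL(2, ℤ)) 0 0 : ℤ) : ℚ)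
        rw [lra_cast_apply]; push_cast; ring
      · show (q : ℚ) ^ 1 * (lra_cast (g : SL(2, ℤ)) 0 1 / q) = (((g : SL(2, ℤ)) 0 1 : ℤ) : ℚ)
        rw [lra_cast_apply]; field_simp
      · show (q : ℚ) ^ 1 * (q * lra_cast (g : SL(2, ℤ)) 1 0) =
          ((q * q * (g : SL(2, ℤ)) 1 0 : ℤ) : ℚ)
        rw [lra_cast_apply]; push_cast; ring
      · show (q : ℚ) ^ 1 * lra_cast (g : SL(2, ℤ)) 1 1 = ((q * (g : SL(2, ℤ)) 1 1 : ℤ) : ℚ)
        rw [lra_cast_apply]; push_cast; ring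
    · show (N : ℤ) ∣ q * q * (g : SL(2, ℤ)) 1 0
      exact Dvd.dvd.mul_left (lra_dvd_of_mem g.2) _

theorem lra_i1_apply (N q : ℕ) (g : Gamma0 N) (i j : Fin 2) :
    (lra_i1 N q g : SL(2, ℚ)) i j = (((g : SL(2, ℤ)) i j : ℤ) : ℚ) :=
  lra_cast_apply _ i j

theorem lra_i2_apply (N q : ℕ) [Fact q.Prime] (g : Gamma0 N) :
    (lra_i2 N q g : SL(2, ℚ)) 0 0 = (((g : SL(2, ℤ)) 0 0 : ℤ) : ℚ) ∧
    (lra_i2 N q g : SL(2, ℚ)) 0 1 = (((g : SL(2, ℤ)) 0 1 : ℤ) : ℚ) / q ∧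
    (lra_i2 N q g : SL(2, ℚ)) 1 0 = q * (((g : SL(2, ℤ)) 1 0 : ℤ) : ℚ) ∧
    (lra_i2 N q g : SL(2, ℚ)) 1 1 = (((g : SL(2, ℤ)) 1 1 : ℤ) : ℚ) := by
  refine ⟨?_, ?_, ?_, ?_⟩
  · show lra_cast (g : SL(2, ℤ)) 0 0 = _
    rw [lra_cast_apply]
  · show lra_cast (g : SL(2, ℤ)) 0 1 / q = _
    rw [lra_cast_apply]
  · show q * lra_cast (g : SL(2, ℤ)) 1 0 = _
    rw [lra_cast_apply]
  · show lra_cast (g : SL(2, ℤ)) 1 1 = _
    rw [lra_cast_apply]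

theorem lra_i1_injective (N q : ℕ) : Function.Injective (lra_i1 N q) := by
  intro g g' h
  have h1 : lra_cast (g : SL(2, ℤ)) = lra_cast (g' : SL(2, ℤ)) := congrArg Subtype.val h
  exact Subtype.ext (lra_cast_injective h1)

theorem lra_conj_injective (q : ℕ) [Fact q.Prime] : Function.Injective (lra_conj q) := by
  have hq : (q : ℚ) ≠ 0 := by exact_mod_cast (Fact.out : q.Prime).ne_zero
  intro g g' h
  have e := fun i j => congrArg (fun x : SL(2, ℚ) => x i j) h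
  have e00 := e 0 0
  have e01 := e 0 1
  have e10 := e 1 0
  have e11 := e 1 1
  simp only [(lra_conj_apply q g).1, (lra_conj_apply q g).2.1, (lra_conj_apply q g).2.2.1,
    (lra_conj_apply q g).2.2.2, (lra_conj_apply q g').1, (lra_conj_apply q g').2.1,
    (lra_conj_apply q g').2.2.1, (lra_conj_apply q g').2.2.2] at e00 e01 e10 e11
  ext i j
  fin_cases i <;> fin_cases j
  · exact e00
  · have := (div_left_inj' hq).mp e01
    exact this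
  · exact mul_left_cancel₀ hq e10
  · exact e11

theorem lra_i2_injective (N q : ℕ) [Fact q.Prime] : Function.Injective (lra_i2 N q) := by
  intro g g' h
  have h1 : lra_conj q (lra_cast (g : SL(2, ℤ))) = lra_conj q (lra_cast (g' : SL(2, ℤ))) :=
    congrArg Subtype.val h
  exact Subtype.ext (lra_cast_injective (lra_conj_injective q h1))

/-! ### The two maps `Γ₀(Nq) → Γ₀(N)` -/

theorem lra_le (N q : ℕ) : Gamma0 (N * q) ≤ Gamma0 N := by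
  intro g hg
  have h1 : ((N * q : ℕ) : ℤ) ∣ g 1 0 := lra_dvd_of_mem hg
  refine lra_mem_of_dvd (dvd_trans ?_ h1)
  push_cast
  exact dvd_mul_right _ _

theorem lra_dvd_q (N q : ℕ) (g : Gamma0 (N * q)) : (q : ℤ) ∣ (g : SL(2, ℤ)) 1 0 := by
  have h1 : ((N * q : ℕ) : ℤ) ∣ (g : SL(2, ℤ)) 1 0 := lra_dvd_of_mem g.2
  refine dvd_trans ?_ h1
  push_cast
  exact dvd_mul_left _ _

theorem lra_mem_of_dvd_dvd {N q : ℕ} [Fact q.Prime] (hqN : ¬ q ∣ N) {g : SL(2, ℤ)}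
    (h1 : (N : ℤ) ∣ g 1 0) (h2 : (q : ℤ) ∣ g 1 0) : g ∈ Gamma0 (N * q) := by
  refine lra_mem_of_dvd ?_
  push_cast
  have hcop : IsCoprime (N : ℤ) (q : ℤ) :=
    Nat.isCoprime_iff_coprime.mpr ((Nat.Prime.coprime_iff_not_dvd Fact.out).mpr hqN).symm
  exact hcop.mul_dvd h1 h2

/-- the inclusion `Γ₀(Nq) → Γ₀(N)` -/
def lra_incl (N q : ℕ) : Gamma0 (N * q) →* Gamma0 N := Subgroup.inclusion (lra_le N q)

theorem lra_incl_coe (N q : ℕ) (g : Gamma0 (N * q)) :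
    ((lra_incl N q g : Gamma0 N) : SL(2, ℤ)) = g := rfl

theorem lra_incl_injective (N q : ℕ) : Function.Injective (lra_incl N q) :=
  Subgroup.inclusion_injective _

/-- `[[a, b], [c, d]] ↦ [[a, q b], [c / q, d]]`, `Γ₀(Nq) → Γ₀(N)` (as a function) -/
def lra_betaFun (N q : ℕ) [Fact q.Prime] (g : Gamma0 (N * q)) : Gamma0 N :=
  ⟨⟨!![(g : SL(2, ℤ)) 0 0, q * (g : SL(2, ℤ)) 0 1; (g : SL(2, ℤ)) 1 0 / q, (g : SL(2, ℤ)) 1 1], by
      have h := lra_det (g : SL(2, ℤ))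
      have h2 : (q : ℤ) * ((g : SL(2, ℤ)) 1 0 / q) = (g : SL(2, ℤ)) 1 0 :=
        Int.mul_ediv_cancel' (lra_dvd_q N q g)
      rw [Matrix.det_fin_two_of]
      linear_combination h - (g : SL(2, ℤ)) 0 1 * h2⟩,
    lra_mem_of_dvd (by
      show (N : ℤ) ∣ (g : SL(2, ℤ)) 1 0 / q
      have hq : (q : ℤ) ≠ 0 := by exact_mod_cast (Fact.out : q.Prime).ne_zero
      obtain ⟨t, ht⟩ : ((N * q : ℕ) : ℤ) ∣ (g : SL(2, ℤ)) 1 0 := lra_dvd_of_mem g.2
      rw [ht]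
      push_cast
      rw [mul_comm (N : ℤ) q, mul_assoc, Int.mul_ediv_cancel_left _ hq]
      exact dvd_mul_right _ _)⟩

theorem lra_betaFun_apply (N q : ℕ) [Fact q.Prime] (g : Gamma0 (N * q)) :
    ((lra_betaFun N q g : Gamma0 N) : SL(2, ℤ)) 0 0 = (g : SL(2, ℤ)) 0 0 ∧
    ((lra_betaFun N q g : Gamma0 N) : SL(2, ℤ)) 0 1 = q * (g : SL(2, ℤ)) 0 1 ∧
    (q : ℤ) * ((lra_betaFun N q g : Gamma0 N) : SL(2, ℤ)) 1 0 = (g : SL(2, ℤ)) 1 0 ∧
    ((lra_betaFun N q g : Gamma0 N) : SL(2, ℤ)) 1 1 = (g : SL(2, ℤ)) 1 1 :=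
  ⟨rfl, rfl, Int.mul_ediv_cancel' (lra_dvd_q N q g), rfl⟩

theorem lra_i2_betaFun (N q : ℕ) [Fact q.Prime] (g : Gamma0 (N * q)) :
    lra_i2 N q (lra_betaFun N q g) = lra_i1 N q (lra_incl N q g) := by
  have hq : (q : ℚ) ≠ 0 := by exact_mod_cast (Fact.out : q.Prime).ne_zero
  obtain ⟨b00, b01, b10, b11⟩ := lra_betaFun_apply N q g
  obtain ⟨h00, h01, h10, h11⟩ := lra_i2_apply N q (lra_betaFun N q g)
  apply Subtype.ext
  ext i j
  fin_cases i <;> fin_cases j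
  · show (lra_i2 N q (lra_betaFun N q g) : SL(2, ℚ)) 0 0 = (lra_i1 N q (lra_incl N q g) : SL(2, ℚ)) 0 0
    rw [h00, lra_i1_apply, b00, lra_incl_coe]
  · show (lra_i2 N q (lra_betaFun N q g) : SL(2, ℚ)) 0 1 = (lra_i1 N q (lra_incl N q g) : SL(2, ℚ)) 0 1
    rw [h01, lra_i1_apply, b01, lra_incl_coe]
    push_cast
    field_simp
  · show (lra_i2 N q (lra_betaFun N q g) : SL(2, ℚ)) 1 0 = (lra_i1 N q (lra_incl N q g) : SL(2, ℚ)) 1 0
    rw [h10, lra_i1_apply, lra_incl_coe, ← b10]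
    push_cast
    rfl
  · show (lra_i2 N q (lra_betaFun N q g) : SL(2, ℚ)) 1 1 = (lra_i1 N q (lra_incl N q g) : SL(2, ℚ)) 1 1
    rw [h11, lra_i1_apply, b11, lra_incl_coe]

/-- `[[a, b], [c, d]] ↦ [[a, q b], [c / q, d]]`, `Γ₀(Nq) → Γ₀(N)` (conjugation by `diag(q, 1)`) -/
def lra_beta (N q : ℕ) [Fact q.Prime] : Gamma0 (N * q) →* Gamma0 N where
  toFun := lra_betaFun N q
  map_one' := by
    apply lra_i2_injective N q
    rw [lra_i2_betaFun, map_one, map_one, map_one]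
  map_mul' g h := by
    apply lra_i2_injective N q
    rw [lra_i2_betaFun, map_mul, map_mul, map_mul, lra_i2_betaFun, lra_i2_betaFun]

theorem lra_beta_apply (N q : ℕ) [Fact q.Prime] (g : Gamma0 (N * q)) :
    ((lra_beta N q g : Gamma0 N) : SL(2, ℤ)) 0 0 = (g : SL(2, ℤ)) 0 0 ∧
    ((lra_beta N q g : Gamma0 N) : SL(2, ℤ)) 0 1 = q * (g : SL(2, ℤ)) 0 1 ∧
    (q : ℤ) * ((lra_beta N q g : Gamma0 N) : SL(2, ℤ)) 1 0 = (g : SL(2, ℤ)) 1 0 ∧
    ((lra_beta N q g : Gamma0 N) : SL(2, ℤ)) 1 1 = (g : SL(2, ℤ)) 1 1 :=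
  lra_betaFun_apply N q g

/-- the amalgamation square commutes -/
theorem lra_i1_incl_eq_i2_beta (N q : ℕ) [Fact q.Prime] (g : Gamma0 (N * q)) :
    lra_i1 N q (lra_incl N q g) = lra_i2 N q (lra_beta N q g) :=
  (lra_i2_betaFun N q g).symm

theorem lra_beta_injective (N q : ℕ) [Fact q.Prime] : Function.Injective (lra_beta N q) := by
  intro g g' h
  apply lra_incl_injective N q
  apply lra_i1_injective N q
  rw [lra_i1_incl_eq_i2_beta, lra_i1_incl_eq_i2_beta, h]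

/-- the image of `lra_incl`: lower-left entry divisible by `q` -/
theorem lra_mem_range_incl {N q : ℕ} [Fact q.Prime] (hqN : ¬ q ∣ N) (g : Gamma0 N) :
    g ∈ (lra_incl N q).range ↔ (q : ℤ) ∣ (g : SL(2, ℤ)) 1 0 := by
  constructor
  · rintro ⟨h, rfl⟩
    exact lra_dvd_q N q h
  · intro hq
    exact ⟨⟨(g : SL(2, ℤ)), lra_mem_of_dvd_dvd hqN (lra_dvd_of_mem g.2) hq⟩, rfl⟩

/-- the image of `lra_beta`: upper-right entry divisible by `q` -/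
theorem lra_mem_range_beta {N q : ℕ} [Fact q.Prime] (hqN : ¬ q ∣ N) (g : Gamma0 N) :
    g ∈ (lra_beta N q).range ↔ (q : ℤ) ∣ (g : SL(2, ℤ)) 0 1 := by
  constructor
  · rintro ⟨h, rfl⟩
    rw [(lra_beta_apply N q h).2.1]
    exact dvd_mul_right _ _
  · intro hq
    have hdet := lra_det (g : SL(2, ℤ))
    have h2 : (q : ℤ) * ((g : SL(2, ℤ)) 0 1 / q) = (g : SL(2, ℤ)) 0 1 := Int.mul_ediv_cancel' hq
    let γ : SL(2, ℤ) := ⟨!![(g : SL(2, ℤ)) 0 0, (g : SL(2, ℤ)) 0 1 / q;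
        q * (g : SL(2, ℤ)) 1 0, (g : SL(2, ℤ)) 1 1], by
      rw [Matrix.det_fin_two_of]
      linear_combination hdet - (g : SL(2, ℤ)) 1 0 * h2⟩
    have hγ : γ ∈ Gamma0 (N * q) := by
      refine lra_mem_of_dvd_dvd hqN ?_ ?_
      · show (N : ℤ) ∣ q * (g : SL(2, ℤ)) 1 0
        exact Dvd.dvd.mul_left (lra_dvd_of_mem g.2) _
      · show (q : ℤ) ∣ q * (g : SL(2, ℤ)) 1 0
        exact dvd_mul_right _ _
    refine ⟨⟨γ, hγ⟩, ?_⟩
    obtain ⟨b00, b01, b10, b11⟩ := lra_beta_apply N q ⟨γ, hγ⟩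
    have hqz : (q : ℤ) ≠ 0 := by exact_mod_cast (Fact.out : q.Prime).ne_zero
    apply Subtype.ext
    ext i j
    fin_cases i <;> fin_cases j
    · exact b00
    · show ((lra_beta N q ⟨γ, hγ⟩ : Gamma0 N) : SL(2, ℤ)) 0 1 = (g : SL(2, ℤ)) 0 1
      rw [b01]
      exact h2
    · show ((lra_beta N q ⟨γ, hγ⟩ : Gamma0 N) : SL(2, ℤ)) 1 0 = (g : SL(2, ℤ)) 1 0
      exact mul_left_cancel₀ hqz b10
    · exact b11

end Fermat.Agent.LR
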