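/-
LR node [AMALG], part 3 (generation).

`Γ₀(N)[1/q]` is generated by the two copies `lra_i1 (Γ₀(N))`, `lra_i2 (Γ₀(N))` of `Γ₀(N)`.
Induction on the `q`-height, in alternating half-steps: a matrix `g` with `q^(n+1) g` integral is
moved by an element of the first copy to one with `q^n · diag(q, 1) g` integral, and this one by an
element of the second copy to one with `q^n g` integral.  Both half-steps use the transitivity of
`Γ₀(N)` on `ℙ¹(𝔽_q)`.  Mathlib only.  Prefix `lra_`.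
-/
import Mathlib
import Fermat.Agent.LR.AMALG.Core

set_option autoImplicit false

open CongruenceSubgroup Matrix.SpecialLinearGroup
open scoped MatrixGroups

namespace Fermat.Agent.LR

/-! ### Linear algebra over `𝔽_q` and the two transitivity statements -/

theorem lra_field_ker {F : Type*} [Field F] {a b c d : F} (hdet : a * d - b * c = 0)
    (hcd : c ≠ 0 ∨ d ≠ 0) : ∃ w : F, a + w * c = 0 ∧ b + w * d = 0 := by
  rcases hcd with hc | hd
  · refine ⟨-a / c, ?_, ?_⟩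
    · field_simp
      ring
    · field_simp
      linear_combination -hdet
  · refine ⟨-b / d, ?_, ?_⟩
    · field_simp
      linear_combination hdet
    · field_simp
      ring

section
variable {N q : ℕ} [Fact q.Prime]

theorem lra_exists_inv_mod (hqN : ¬ q ∣ N) : ∃ c' : ℤ, (((N : ℤ) * c' : ℤ) : ZMod q) = 1 := by
  have hN : ((N : ℕ) : ZMod q) ≠ 0 := by
    rw [Ne, ZMod.natCast_eq_zero_iff]
    exact hqN
  refine ⟨(((N : ZMod q)⁻¹).val : ℤ), ?_⟩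
  push_cast
  rw [ZMod.natCast_zmod_val, mul_inv_cancel₀ hN]

/-- bottom rows: some element of `Γ₀(N)` kills the bottom row of a singular matrix mod `q` -/
theorem lra_trans_bot (hqN : ¬ q ∣ N) (A B C D : ℤ) (hdet : (q : ℤ) ∣ A * D - B * C) :
    ∃ h : Gamma0 N, (q : ℤ) ∣ (h : SL(2, ℤ)) 1 0 * A + (h : SL(2, ℤ)) 1 1 * C ∧
      (q : ℤ) ∣ (h : SL(2, ℤ)) 1 0 * B + (h : SL(2, ℤ)) 1 1 * D := by
  by_cases hCD : (q : ℤ) ∣ C ∧ (q : ℤ) ∣ D
  · refine ⟨1, ?_, ?_⟩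
    · rw [Subgroup.coe_one]
      simpa using hCD.1
    · rw [Subgroup.coe_one]
      simpa using hCD.2
  · have hdet' : (A : ZMod q) * (D : ZMod q) - (B : ZMod q) * (C : ZMod q) = 0 := by
      have := (ZMod.intCast_zmod_eq_zero_iff_dvd _ q).mpr hdet
      push_cast at this
      exact this
    have hcd : (C : ZMod q) ≠ 0 ∨ (D : ZMod q) ≠ 0 := by
      by_contra hcon
      rw [not_or, not_not, not_not] at hcon
      exact hCD ⟨(ZMod.intCast_zmod_eq_zero_iff_dvd _ q).mp hcon.1,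
        (ZMod.intCast_zmod_eq_zero_iff_dvd _ q).mp hcon.2⟩
    obtain ⟨w, hw1, hw2⟩ := lra_field_ker hdet' hcd
    obtain ⟨c', hc'⟩ := lra_exists_inv_mod (N := N) (q := q) hqN
    set t : ℤ := (w.val : ℤ) - 1 with ht
    have htw : ((t : ℤ) : ZMod q) = w - 1 := by
      rw [ht]
      push_cast
      rw [ZMod.natCast_zmod_val]
    let γ : SL(2, ℤ) := ⟨!![1, t; (N : ℤ) * c', 1 + (N : ℤ) * c' * t], by
      rw [Matrix.det_fin_two_of]; ring⟩
    have hγ : γ ∈ Gamma0 N := lra_mem_of_dvd (by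
      show (N : ℤ) ∣ (N : ℤ) * c'
      exact dvd_mul_right _ _)
    refine ⟨⟨γ, hγ⟩, ?_, ?_⟩
    · show (q : ℤ) ∣ (N : ℤ) * c' * A + (1 + (N : ℤ) * c' * t) * C
      rw [← ZMod.intCast_zmod_eq_zero_iff_dvd]
      have : (((N : ℤ) * c' * A + (1 + (N : ℤ) * c' * t) * C : ℤ) : ZMod q) =
          (((N : ℤ) * c' : ℤ) : ZMod q) * A + (1 + (((N : ℤ) * c' : ℤ) : ZMod q) * t) * C := by
        push_cast; ring
      rw [this, hc', htw]
      linear_combination hw1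
    · show (q : ℤ) ∣ (N : ℤ) * c' * B + (1 + (N : ℤ) * c' * t) * D
      rw [← ZMod.intCast_zmod_eq_zero_iff_dvd]
      have : (((N : ℤ) * c' * B + (1 + (N : ℤ) * c' * t) * D : ℤ) : ZMod q) =
          (((N : ℤ) * c' : ℤ) : ZMod q) * B + (1 + (((N : ℤ) * c' : ℤ) : ZMod q) * t) * D := by
        push_cast; ring
      rw [this, hc', htw]
      linear_combination hw2

/-- top rows: some element of `Γ₀(N)` kills the top row of a singular matrix mod `q` -/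
theorem lra_trans_top (hqN : ¬ q ∣ N) (A B C D : ℤ) (hdet : (q : ℤ) ∣ A * D - B * C) :
    ∃ h : Gamma0 N, (q : ℤ) ∣ (h : SL(2, ℤ)) 0 0 * A + (h : SL(2, ℤ)) 0 1 * C ∧
      (q : ℤ) ∣ (h : SL(2, ℤ)) 0 0 * B + (h : SL(2, ℤ)) 0 1 * D := by
  by_cases hAB : (q : ℤ) ∣ A ∧ (q : ℤ) ∣ B
  · refine ⟨1, ?_, ?_⟩
    · rw [Subgroup.coe_one]
      simpa using hAB.1
    · rw [Subgroup.coe_one]
      simpa using hAB.2
  · have hdet' : (C : ZMod q) * (B : ZMod q) - (D : ZMod q) * (A : ZMod q) = 0 := by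
      have := (ZMod.intCast_zmod_eq_zero_iff_dvd _ q).mpr hdet
      push_cast at this
      linear_combination -this
    have hab : (A : ZMod q) ≠ 0 ∨ (B : ZMod q) ≠ 0 := by
      by_contra hcon
      rw [not_or, not_not, not_not] at hcon
      exact hAB ⟨(ZMod.intCast_zmod_eq_zero_iff_dvd _ q).mp hcon.1,
        (ZMod.intCast_zmod_eq_zero_iff_dvd _ q).mp hcon.2⟩
    obtain ⟨w, hw1, hw2⟩ := lra_field_ker hdet' hab
    obtain ⟨c', hc'⟩ := lra_exists_inv_mod (N := N) (q := q) hqN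
    set e : ℤ := c' * ((w.val : ℤ) - 1) with he
    have hew : (((N : ℤ) * e : ℤ) : ZMod q) = w - 1 := by
      have : (((N : ℤ) * e : ℤ) : ZMod q) = (((N : ℤ) * c' : ℤ) : ZMod q) * (((w.val : ℤ) - 1 : ℤ) : ZMod q) := by
        rw [he]; push_cast; ring
      rw [this, hc']
      push_cast
      rw [ZMod.natCast_zmod_val, one_mul]
    let γ : SL(2, ℤ) := ⟨!![1 + (N : ℤ) * e, 1; (N : ℤ) * e, 1], by
      rw [Matrix.det_fin_two_of]; ring⟩
    have hγ : γ ∈ Gamma0 N := lra_mem_of_dvd (by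
      show (N : ℤ) ∣ (N : ℤ) * e
      exact dvd_mul_right _ _)
    refine ⟨⟨γ, hγ⟩, ?_, ?_⟩
    · show (q : ℤ) ∣ (1 + (N : ℤ) * e) * A + 1 * C
      rw [← ZMod.intCast_zmod_eq_zero_iff_dvd]
      have : (((1 + (N : ℤ) * e) * A + 1 * C : ℤ) : ZMod q) =
          (1 + (((N : ℤ) * e : ℤ) : ZMod q)) * A + C := by
        push_cast; ring
      rw [this, hew]
      linear_combination hw1
    · show (q : ℤ) ∣ (1 + (N : ℤ) * e) * B + 1 * D
      rw [← ZMod.intCast_zmod_eq_zero_iff_dvd]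
      have : (((1 + (N : ℤ) * e) * B + 1 * D : ℤ) : ZMod q) =
          (1 + (((N : ℤ) * e : ℤ) : ZMod q)) * B + D := by
        push_cast; ring
      rw [this, hew]
      linear_combination hw2

end

/-! ### The subgroup generated by the two copies of `Γ₀(N)` -/

section
variable (N q : ℕ) [Fact q.Prime]

/-- the subgroup of `SL(2, ℚ)` generated by the two copies of `Γ₀(N)` -/
def lra_S : Subgroup SL(2, ℚ) :=
  Subgroup.closure (Set.range (fun g : Gamma0 N => ((lra_i1 N q g : lra_G N q) : SL(2, ℚ))) ∪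
    Set.range (fun g : Gamma0 N => ((lra_i2 N q g : lra_G N q) : SL(2, ℚ))))

theorem lra_i1_mem_S (g : Gamma0 N) : ((lra_i1 N q g : lra_G N q) : SL(2, ℚ)) ∈ lra_S N q :=
  Subgroup.subset_closure (Or.inl ⟨g, rfl⟩)

theorem lra_i2_mem_S (g : Gamma0 N) : ((lra_i2 N q g : lra_G N q) : SL(2, ℚ)) ∈ lra_S N q :=
  Subgroup.subset_closure (Or.inr ⟨g, rfl⟩)

theorem lra_S_le_G : lra_S N q ≤ lra_G N q := by
  rw [lra_S, Subgroup.closure_le]
  rintro x (⟨g, rfl⟩ | ⟨g, rfl⟩)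
  · exact (lra_i1 N q g).2
  · exact (lra_i2 N q g).2

/-- `q ^ n • diag(q, 1) g` is an integral matrix whose lower-left entry is divisible by `N` -/
def lra_IsIntA (n : ℕ) (g : SL(2, ℚ)) : Prop :=
  ∃ M : Matrix (Fin 2) (Fin 2) ℤ, (q : ℚ) ^ (n + 1) * g 0 0 = (M 0 0 : ℚ) ∧
    (q : ℚ) ^ (n + 1) * g 0 1 = (M 0 1 : ℚ) ∧ (q : ℚ) ^ n * g 1 0 = (M 1 0 : ℚ) ∧
    (q : ℚ) ^ n * g 1 1 = (M 1 1 : ℚ) ∧ (N : ℤ) ∣ M 1 0

end

section
variable {N q : ℕ} [Fact q.Prime]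

theorem lra_P_zero (g : SL(2, ℚ)) (hg : lra_IsInt N q 0 g) : g ∈ lra_S N q := by
  obtain ⟨M, hM, hMN⟩ := hg
  have hM' : ∀ i j, g i j = (M i j : ℚ) := by
    intro i j
    rw [← hM i j, pow_zero, one_mul]
  have hdet : M.det = 1 := by
    have h := lra_detQ g
    rw [hM', hM', hM', hM'] at h
    rw [Matrix.det_fin_two]
    exact_mod_cast h
  have hmem : (⟨M, hdet⟩ : SL(2, ℤ)) ∈ Gamma0 N := lra_mem_of_dvd hMN
  have : g = ((lra_i1 N q ⟨⟨M, hdet⟩, hmem⟩ : lra_G N q) : SL(2, ℚ)) := by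
    ext i j
    rw [lra_i1_apply, hM']
  rw [this]
  exact lra_i1_mem_S N q _

theorem lra_P_to_Q (hqN : ¬ q ∣ N) (n : ℕ)
    (hP : ∀ g : SL(2, ℚ), lra_IsInt N q n g → g ∈ lra_S N q) (g : SL(2, ℚ))
    (hg : lra_IsIntA N q n g) : g ∈ lra_S N q := by
  have hq : (q : ℚ) ≠ 0 := by exact_mod_cast (Fact.out : q.Prime).ne_zero
  obtain ⟨M, h00, h01, h10, h11, hMN⟩ := hg
  -- the determinant of `M` is `q ^ (2 n + 1)`
  have hdet : (q : ℤ) ∣ M 0 0 * M 1 1 - M 0 1 * M 1 0 := by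
    have h := lra_detQ g
    have h2 : ((M 0 0 * M 1 1 - M 0 1 * M 1 0 : ℤ) : ℚ) = ((q * (q : ℤ) ^ (2 * n) : ℤ) : ℚ) := by
      push_cast
      rw [← h00, ← h01, ← h10, ← h11]
      have : (q : ℚ) ^ (n + 1) * g 0 0 * ((q : ℚ) ^ n * g 1 1) -
          (q : ℚ) ^ (n + 1) * g 0 1 * ((q : ℚ) ^ n * g 1 0) =
          (q : ℚ) * (q : ℚ) ^ (2 * n) * (g 0 0 * g 1 1 - g 0 1 * g 1 0) := by ring
      rw [this, h, mul_one]
    have h3 : M 0 0 * M 1 1 - M 0 1 * M 1 0 = q * (q : ℤ) ^ (2 * n) := by exact_mod_cast h2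
    rw [h3]
    exact dvd_mul_right _ _
  obtain ⟨h, ⟨E1, hE1⟩, ⟨E2, hE2⟩⟩ := lra_trans_top hqN (M 0 0) (M 0 1) (M 1 0) (M 1 1) hdet
  obtain ⟨i00, i01, i10, i11⟩ := lra_i2_apply N q h
  have hprod : lra_IsInt N q n (((lra_i2 N q h : lra_G N q) : SL(2, ℚ)) * g) := by
    refine ⟨!![E1, E2; (h : SL(2, ℤ)) 1 0 * M 0 0 + (h : SL(2, ℤ)) 1 1 * M 1 0,
      (h : SL(2, ℤ)) 1 0 * M 0 1 + (h : SL(2, ℤ)) 1 1 * M 1 1], ?_, ?_⟩
    · intro i j
      fin_cases i <;> fin_cases j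
      · show (q : ℚ) ^ n * (((lra_i2 N q h : lra_G N q) : SL(2, ℚ)) * g : SL(2, ℚ)) 0 0 = (E1 : ℚ)
        rw [lra_mul_apply, i00, i01]
        apply mul_left_cancel₀ hq
        have e : ((q : ℚ) * E1) = (((h : SL(2, ℤ)) 0 0 * M 0 0 + (h : SL(2, ℤ)) 0 1 * M 1 0 : ℤ) : ℚ) := by
          rw [hE1]; push_cast; ring
        rw [e]
        push_cast
        rw [← h00, ← h10, pow_succ]
        field_simp
      · show (q : ℚ) ^ n * (((lra_i2 N q h : lra_G N q) : SL(2, ℚ)) * g : SL(2, ℚ)) 0 1 = (E2 : ℚ)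
        rw [lra_mul_apply, i00, i01]
        apply mul_left_cancel₀ hq
        have e : ((q : ℚ) * E2) = (((h : SL(2, ℤ)) 0 0 * M 0 1 + (h : SL(2, ℤ)) 0 1 * M 1 1 : ℤ) : ℚ) := by
          rw [hE2]; push_cast; ring
        rw [e]
        push_cast
        rw [← h01, ← h11, pow_succ]
        field_simp
      · show (q : ℚ) ^ n * (((lra_i2 N q h : lra_G N q) : SL(2, ℚ)) * g : SL(2, ℚ)) 1 0 =
          (((h : SL(2, ℤ)) 1 0 * M 0 0 + (h : SL(2, ℤ)) 1 1 * M 1 0 : ℤ) : ℚ)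
        rw [lra_mul_apply, i10, i11]
        push_cast
        rw [← h00, ← h10, pow_succ]
        ring
      · show (q : ℚ) ^ n * (((lra_i2 N q h : lra_G N q) : SL(2, ℚ)) * g : SL(2, ℚ)) 1 1 =
          (((h : SL(2, ℤ)) 1 0 * M 0 1 + (h : SL(2, ℤ)) 1 1 * M 1 1 : ℤ) : ℚ)
        rw [lra_mul_apply, i10, i11]
        push_cast
        rw [← h01, ← h11, pow_succ]
        ring
    · show (N : ℤ) ∣ (h : SL(2, ℤ)) 1 0 * M 0 0 + (h : SL(2, ℤ)) 1 1 * M 1 0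
      exact dvd_add (Dvd.dvd.mul_right (lra_dvd_of_mem h.2) _) (Dvd.dvd.mul_left hMN _)
  have h1 := hP _ hprod
  have h2 := (lra_S N q).mul_mem ((lra_S N q).inv_mem (lra_i2_mem_S N q h)) h1
  rwa [inv_mul_cancel_left] at h2

theorem lra_Q_to_P (hqN : ¬ q ∣ N) (n : ℕ)
    (hQ : ∀ g : SL(2, ℚ), lra_IsIntA N q n g → g ∈ lra_S N q) (g : SL(2, ℚ))
    (hg : lra_IsInt N q (n + 1) g) : g ∈ lra_S N q := by
  have hq : (q : ℚ) ≠ 0 := by exact_mod_cast (Fact.out : q.Prime).ne_zero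
  obtain ⟨M, hM, hMN⟩ := hg
  have hdet : (q : ℤ) ∣ M 0 0 * M 1 1 - M 0 1 * M 1 0 := by
    have h := lra_detQ g
    have h2 : ((M 0 0 * M 1 1 - M 0 1 * M 1 0 : ℤ) : ℚ) =
        ((q * (q : ℤ) ^ (2 * n + 1) : ℤ) : ℚ) := by
      push_cast
      rw [← hM 0 0, ← hM 0 1, ← hM 1 0, ← hM 1 1]
      have : (q : ℚ) ^ (n + 1) * g 0 0 * ((q : ℚ) ^ (n + 1) * g 1 1) -
          (q : ℚ) ^ (n + 1) * g 0 1 * ((q : ℚ) ^ (n + 1) * g 1 0) =
          (q : ℚ) * (q : ℚ) ^ (2 * n + 1) * (g 0 0 * g 1 1 - g 0 1 * g 1 0) := by ring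
      rw [this, h, mul_one]
    have h3 : M 0 0 * M 1 1 - M 0 1 * M 1 0 = q * (q : ℤ) ^ (2 * n + 1) := by exact_mod_cast h2
    rw [h3]
    exact dvd_mul_right _ _
  obtain ⟨h, ⟨E1, hE1⟩, ⟨E2, hE2⟩⟩ := lra_trans_bot hqN (M 0 0) (M 0 1) (M 1 0) (M 1 1) hdet
  have hcop : IsCoprime (N : ℤ) (q : ℤ) :=
    Nat.isCoprime_iff_coprime.mpr ((Nat.Prime.coprime_iff_not_dvd Fact.out).mpr hqN).symm
  have hprod : lra_IsIntA N q n (((lra_i1 N q h : lra_G N q) : SL(2, ℚ)) * g) := by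
    refine ⟨!![(h : SL(2, ℤ)) 0 0 * M 0 0 + (h : SL(2, ℤ)) 0 1 * M 1 0,
      (h : SL(2, ℤ)) 0 0 * M 0 1 + (h : SL(2, ℤ)) 0 1 * M 1 1; E1, E2], ?_, ?_, ?_, ?_, ?_⟩
    · show (q : ℚ) ^ (n + 1) * (((lra_i1 N q h : lra_G N q) : SL(2, ℚ)) * g : SL(2, ℚ)) 0 0 =
        (((h : SL(2, ℤ)) 0 0 * M 0 0 + (h : SL(2, ℤ)) 0 1 * M 1 0 : ℤ) : ℚ)
      rw [lra_mul_apply, lra_i1_apply, lra_i1_apply]
      push_cast
      rw [← hM 0 0, ← hM 1 0]
      ring
    · show (q : ℚ) ^ (n + 1) * (((lra_i1 N q h : lra_G N q) : SL(2, ℚ)) * g : SL(2, ℚ)) 0 1 =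
        (((h : SL(2, ℤ)) 0 0 * M 0 1 + (h : SL(2, ℤ)) 0 1 * M 1 1 : ℤ) : ℚ)
      rw [lra_mul_apply, lra_i1_apply, lra_i1_apply]
      push_cast
      rw [← hM 0 1, ← hM 1 1]
      ring
    · show (q : ℚ) ^ n * (((lra_i1 N q h : lra_G N q) : SL(2, ℚ)) * g : SL(2, ℚ)) 1 0 = (E1 : ℚ)
      rw [lra_mul_apply, lra_i1_apply, lra_i1_apply]
      apply mul_left_cancel₀ hq
      have e : ((q : ℚ) * E1) =
          (((h : SL(2, ℤ)) 1 0 * M 0 0 + (h : SL(2, ℤ)) 1 1 * M 1 0 : ℤ) : ℚ) := by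
        rw [hE1]; push_cast; ring
      rw [e]
      push_cast
      rw [← hM 0 0, ← hM 1 0, pow_succ]
      ring
    · show (q : ℚ) ^ n * (((lra_i1 N q h : lra_G N q) : SL(2, ℚ)) * g : SL(2, ℚ)) 1 1 = (E2 : ℚ)
      rw [lra_mul_apply, lra_i1_apply, lra_i1_apply]
      apply mul_left_cancel₀ hq
      have e : ((q : ℚ) * E2) =
          (((h : SL(2, ℤ)) 1 0 * M 0 1 + (h : SL(2, ℤ)) 1 1 * M 1 1 : ℤ) : ℚ) := by
        rw [hE2]; push_cast; ring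
      rw [e]
      push_cast
      rw [← hM 0 1, ← hM 1 1, pow_succ]
      ring
    · show (N : ℤ) ∣ E1
      refine hcop.dvd_of_dvd_mul_left ?_
      rw [← hE1]
      exact dvd_add (Dvd.dvd.mul_right (lra_dvd_of_mem h.2) _) (Dvd.dvd.mul_left hMN _)
  have h1 := hQ _ hprod
  have h2 := (lra_S N q).mul_mem ((lra_S N q).inv_mem (lra_i1_mem_S N q h)) h1
  rwa [inv_mul_cancel_left] at h2

theorem lra_P (hqN : ¬ q ∣ N) :
    ∀ (n : ℕ) (g : SL(2, ℚ)), lra_IsInt N q n g → g ∈ lra_S N q := by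
  intro n
  induction n with
  | zero => exact lra_P_zero
  | succ n ih => exact lra_Q_to_P hqN n (lra_P_to_Q hqN n ih)

/-- GENERATION: `Γ₀(N)[1/q]` is the subgroup of `SL(2, ℚ)` generated by the two copies of
`Γ₀(N)` -/
theorem lra_S_eq_G (hqN : ¬ q ∣ N) : lra_S N q = lra_G N q := by
  refine le_antisymm (lra_S_le_G N q) ?_
  rintro g ⟨n, hg⟩
  exact lra_P hqN n g hg

/-- GENERATION, inside `Γ₀(N)[1/q]` -/
theorem lra_closure (hqN : ¬ q ∣ N) :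
    Subgroup.closure (Set.range (lra_i1 N q) ∪ Set.range (lra_i2 N q)) = ⊤ := by
  apply Subgroup.map_injective (lra_G N q).subtype_injective
  rw [MonoidHom.map_closure, ← MonoidHom.range_eq_map, Subgroup.range_subtype]
  refine Eq.trans ?_ (lra_S_eq_G hqN)
  rw [lra_S, Set.image_union, ← Set.range_comp, ← Set.range_comp]
  rfl

end

end Fermat.Agent.LR
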