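/-
LR node [AMALG], part 4 (the amalgam theorem).

`Γ₀(N)[1/q] = Γ₀(N) *_{Γ₀(Nq)} Γ₀(N)`: the canonical map from Mathlib's `Monoid.PushoutI` of
`lra_incl, lra_beta : Γ₀(Nq) → Γ₀(N)` to `lra_G N q` is an isomorphism, and the universal property
that follows: two homomorphisms `f₁, f₂ : Γ₀(N) → K` with `f₁ ∘ lra_incl = f₂ ∘ lra_beta` extend
uniquely to `Γ₀(N)[1/q]`.  Mathlib only.  Prefix `lra_`.
-/
import Mathlib
import Fermat.Agent.LR.AMALG.Core
import Fermat.Agent.LR.AMALG.Inj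
import Fermat.Agent.LR.AMALG.Gen

set_option autoImplicit false

open CongruenceSubgroup Matrix.SpecialLinearGroup Monoid
open scoped MatrixGroups

namespace Fermat.Agent.LR

variable {N q : ℕ} [Fact q.Prime]

theorem lra_lift_surjective (hqN : ¬ q ∣ N) : Function.Surjective (lra_lift N q) := by
  rw [← MonoidHom.range_eq_top, eq_top_iff, ← lra_closure hqN, Subgroup.closure_le]
  rintro x (⟨g, rfl⟩ | ⟨g, rfl⟩)
  · exact ⟨PushoutI.of 0 g, lra_lift_of N q 0 g⟩
  · exact ⟨PushoutI.of 1 g, lra_lift_of N q 1 g⟩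

/-- THE AMALGAM THEOREM: `Γ₀(N) *_{Γ₀(Nq)} Γ₀(N) ≃* Γ₀(N)[1/q]` -/
noncomputable def lra_pushout_equiv (hqN : ¬ q ∣ N) : PushoutI (lra_phi N q) ≃* lra_G N q :=
  MulEquiv.ofBijective (lra_lift N q) ⟨lra_lift_injective hqN, lra_lift_surjective hqN⟩

theorem lra_pushout_equiv_apply (hqN : ¬ q ∣ N) (x : PushoutI (lra_phi N q)) :
    lra_pushout_equiv hqN x = lra_lift N q x := rfl

theorem lra_pushout_equiv_symm_i1 (hqN : ¬ q ∣ N) (g : Gamma0 N) :
    (lra_pushout_equiv hqN).symm (lra_i1 N q g) = PushoutI.of (φ := lra_phi N q) 0 g := by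
  rw [MulEquiv.symm_apply_eq, lra_pushout_equiv_apply, lra_lift_of]
  rfl

theorem lra_pushout_equiv_symm_i2 (hqN : ¬ q ∣ N) (g : Gamma0 N) :
    (lra_pushout_equiv hqN).symm (lra_i2 N q g) = PushoutI.of (φ := lra_phi N q) 1 g := by
  rw [MulEquiv.symm_apply_eq, lra_pushout_equiv_apply, lra_lift_of]
  rfl

/-- the extension of a compatible pair of homomorphisms to `Γ₀(N)[1/q]` -/
noncomputable def lra_ext (hqN : ¬ q ∣ N) {K : Type*} [Group K] (f1 f2 : Gamma0 N →* K)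
    (h : ∀ g : Gamma0 (N * q), f1 (lra_incl N q g) = f2 (lra_beta N q g)) : lra_G N q →* K :=
  (PushoutI.lift (φ := lra_phi N q) (fun i : Fin 2 => (![f1, f2] i : lra_Fam N i →* K))
    (f1.comp (lra_incl N q)) (by
      intro i
      fin_cases i
      · rfl
      · refine MonoidHom.ext fun g => ?_
        exact (h g).symm)).comp (lra_pushout_equiv hqN).symm.toMonoidHom

theorem lra_ext_i1 (hqN : ¬ q ∣ N) {K : Type*} [Group K] (f1 f2 : Gamma0 N →* K)
    (h : ∀ g : Gamma0 (N * q), f1 (lra_incl N q g) = f2 (lra_beta N q g)) (g : Gamma0 N) :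
    lra_ext hqN f1 f2 h (lra_i1 N q g) = f1 g := by
  rw [lra_ext, MonoidHom.comp_apply, MulEquiv.coe_toMonoidHom, lra_pushout_equiv_symm_i1,
    PushoutI.lift_of]
  rfl

theorem lra_ext_i2 (hqN : ¬ q ∣ N) {K : Type*} [Group K] (f1 f2 : Gamma0 N →* K)
    (h : ∀ g : Gamma0 (N * q), f1 (lra_incl N q g) = f2 (lra_beta N q g)) (g : Gamma0 N) :
    lra_ext hqN f1 f2 h (lra_i2 N q g) = f2 g := by
  rw [lra_ext, MonoidHom.comp_apply, MulEquiv.coe_toMonoidHom, lra_pushout_equiv_symm_i2,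
    PushoutI.lift_of]
  rfl

/-- homomorphisms out of `Γ₀(N)[1/q]` are determined by their restrictions to the two copies of
`Γ₀(N)` -/
theorem lra_hom_ext (hqN : ¬ q ∣ N) {K : Type*} [Group K] {F F' : lra_G N q →* K}
    (h1 : ∀ g, F (lra_i1 N q g) = F' (lra_i1 N q g))
    (h2 : ∀ g, F (lra_i2 N q g) = F' (lra_i2 N q g)) : F = F' := by
  refine MonoidHom.eq_of_eqOn_dense (lra_closure hqN) ?_
  rintro x (⟨g, rfl⟩ | ⟨g, rfl⟩)
  · exact h1 g
  · exact h2 g

/-- THE UNIVERSAL PROPERTY of `Γ₀(N)[1/q] = Γ₀(N) *_{Γ₀(Nq)} Γ₀(N)` -/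
theorem lra_extend (hqN : ¬ q ∣ N) {K : Type*} [Group K] (f1 f2 : Gamma0 N →* K)
    (h : ∀ g : Gamma0 (N * q), f1 (lra_incl N q g) = f2 (lra_beta N q g)) :
    ∃! F : lra_G N q →* K, F.comp (lra_i1 N q) = f1 ∧ F.comp (lra_i2 N q) = f2 := by
  refine ⟨lra_ext hqN f1 f2 h, ⟨MonoidHom.ext (lra_ext_i1 hqN f1 f2 h),
    MonoidHom.ext (lra_ext_i2 hqN f1 f2 h)⟩, ?_⟩
  rintro F' ⟨rfl, rfl⟩
  refine lra_hom_ext hqN (fun g => ?_) (fun g => ?_)
  · rw [lra_ext_i1]
    rfl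
  · rw [lra_ext_i2]
    rfl

/-- the additive form: a pair of additive characters `x, y` of `Γ₀(N)` with
`x ∘ lra_incl + y ∘ lra_beta = 0` on `Γ₀(Nq)` is the same thing as an additive character of
`Γ₀(N)[1/q]` (restricting to `x` on the first copy and to `-y` on the second) -/
theorem lra_extend_add (hqN : ¬ q ∣ N) {A : Type*} [AddCommGroup A]
    (x y : Additive (Gamma0 N) →+ A)
    (h : ∀ g : Gamma0 (N * q), x (Additive.ofMul (lra_incl N q g)) +
      y (Additive.ofMul (lra_beta N q g)) = 0) :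
    ∃! Φ : Additive (lra_G N q) →+ A,
      (∀ g : Gamma0 N, Φ (Additive.ofMul (lra_i1 N q g)) = x (Additive.ofMul g)) ∧
      (∀ g : Gamma0 N, Φ (Additive.ofMul (lra_i2 N q g)) = - y (Additive.ofMul g)) := by
  have hc : ∀ g : Gamma0 (N * q), (AddMonoidHom.toMultiplicativeRight x) (lra_incl N q g) =
      (AddMonoidHom.toMultiplicativeRight (-y)) (lra_beta N q g) := by
    intro g
    apply Multiplicative.toAdd.injective
    show x (Additive.ofMul (lra_incl N q g)) = - y (Additive.ofMul (lra_beta N q g))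
    exact eq_neg_of_add_eq_zero_left (h g)
  obtain ⟨F, ⟨hF1, hF2⟩, hFu⟩ := lra_extend hqN (AddMonoidHom.toMultiplicativeRight x)
    (AddMonoidHom.toMultiplicativeRight (-y)) hc
  refine ⟨MonoidHom.toAdditiveLeft F, ⟨fun g => ?_, fun g => ?_⟩, ?_⟩
  · have := congrArg (fun f => Multiplicative.toAdd (f g)) hF1
    exact this
  · have := congrArg (fun f => Multiplicative.toAdd (f g)) hF2
    exact this
  · rintro Φ ⟨hΦ1, hΦ2⟩
    have := hFu (AddMonoidHom.toMultiplicativeRight Φ) ⟨MonoidHom.ext fun g => ?_,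
      MonoidHom.ext fun g => ?_⟩
    · rw [← this]
      rfl
    · apply Multiplicative.toAdd.injective
      exact hΦ1 g
    · apply Multiplicative.toAdd.injective
      exact hΦ2 g

end Fermat.Agent.LR
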