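/-
LR node [AMALG], part 5 (adapter to [IH-GLUE]).

`lra_amalg_stmt : lrih_Amalg_stmt` — the amalgam theorem `lra_extend_add` read through the obvious
embedding of the bare-structure model `CspM` of `SL₂(ℚ)` (LR/CSP/Basic) into Mathlib's `SL(2, ℚ)`,
with helper5's maps `lrm_incl`, `lrm_beta` identified with `lra_incl`, `lra_beta`.  Prefix `lra_`.
-/
import Mathlib
import Fermat.Agent.LR.IH.Glue
import Fermat.Agent.LR.AMALG.Amalg

set_option autoImplicit false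

open CongruenceSubgroup Matrix.SpecialLinearGroup
open scoped MatrixGroups

universe u

namespace Fermat.Agent.LR

/-! ### `CspM → SL(2, ℚ)` -/

/-- the bare-structure model of `SL₂(ℚ)` into Mathlib's -/
def lra_toSL (g : CspM) : SL(2, ℚ) :=
  ⟨!![g.a, g.b; g.c, g.d], by rw [Matrix.det_fin_two_of]; exact g.det⟩

theorem lra_toSL_apply (g : CspM) :
    lra_toSL g 0 0 = g.a ∧ lra_toSL g 0 1 = g.b ∧ lra_toSL g 1 0 = g.c ∧ lra_toSL g 1 1 = g.d :=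
  ⟨rfl, rfl, rfl, rfl⟩

theorem lra_toSL_mul (g h : CspM) : lra_toSL (g * h) = lra_toSL g * lra_toSL h := by
  obtain ⟨p00, p01, p10, p11⟩ := lra_toSL_apply (g * h)
  obtain ⟨g00, g01, g10, g11⟩ := lra_toSL_apply g
  obtain ⟨h00, h01, h10, h11⟩ := lra_toSL_apply h
  ext i j
  fin_cases i <;> fin_cases j
  · show lra_toSL (g * h) 0 0 = (lra_toSL g * lra_toSL h : SL(2, ℚ)) 0 0
    rw [lra_mul_apply, p00, g00, g01, h00, h10, CspM.mul_a]
  · show lra_toSL (g * h) 0 1 = (lra_toSL g * lra_toSL h : SL(2, ℚ)) 0 1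
    rw [lra_mul_apply, p01, g00, g01, h01, h11, CspM.mul_b]
  · show lra_toSL (g * h) 1 0 = (lra_toSL g * lra_toSL h : SL(2, ℚ)) 1 0
    rw [lra_mul_apply, p10, g10, g11, h00, h10, CspM.mul_c]
  · show lra_toSL (g * h) 1 1 = (lra_toSL g * lra_toSL h : SL(2, ℚ)) 1 1
    rw [lra_mul_apply, p11, g10, g11, h01, h11, CspM.mul_d]

/-- `Γ₀(N)[1/q]` in the `CspM` model lands in `lra_G N q` -/
theorem lra_toSL_mem {N q : ℕ} {g : CspM} (hg : g ∈ csp_Gam0 q (N : ℤ)) :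
    lra_toSL g ∈ lra_G N q := by
  obtain ⟨hA, hc⟩ := hg
  obtain ⟨ha, hb, _, hd⟩ := csp_GamA_mem_iff.1 hA
  obtain ⟨y, hy, hcy⟩ := hc
  obtain ⟨na, hna⟩ := lrih_clear ha
  obtain ⟨nb, hnb⟩ := lrih_clear hb
  obtain ⟨ny, hny⟩ := lrih_clear hy
  obtain ⟨nd, hnd⟩ := lrih_clear hd
  set m := na + nb + ny + nd with hm
  obtain ⟨za, hza⟩ := hna m (by omega)
  obtain ⟨zb, hzb⟩ := hnb m (by omega)
  obtain ⟨zy, hzy⟩ := hny m (by omega)
  obtain ⟨zd, hzd⟩ := hnd m (by omega)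
  refine ⟨m, !![za, zb; (N : ℤ) * zy, zd], ?_, ?_⟩
  · intro i j
    fin_cases i <;> fin_cases j
    · exact hza
    · exact hzb
    · show (q : ℚ) ^ m * g.c = (((N : ℤ) * zy : ℤ) : ℚ)
      rw [hcy]
      push_cast
      rw [← hzy]
      ring
    · exact hzd
  · show (N : ℤ) ∣ (N : ℤ) * zy
    exact dvd_mul_right _ _

/-! ### The two embeddings agree -/

theorem lra_toSL_toCsp {N : ℕ} (q : ℕ) (γ : Gamma0 N) :
    lra_toSL (lrih_toCsp (γ : SL(2, ℤ))) = ((lra_i1 N q γ : lra_G N q) : SL(2, ℚ)) := by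
  ext i j
  fin_cases i <;> fin_cases j
  · show (lrih_toCsp (γ : SL(2, ℤ))).a = ((lra_i1 N q γ : lra_G N q) : SL(2, ℚ)) 0 0
    rw [lra_i1_apply, lrih_toCsp_a]
  · show (lrih_toCsp (γ : SL(2, ℤ))).b = ((lra_i1 N q γ : lra_G N q) : SL(2, ℚ)) 0 1
    rw [lra_i1_apply, lrih_toCsp_b]
  · show (lrih_toCsp (γ : SL(2, ℤ))).c = ((lra_i1 N q γ : lra_G N q) : SL(2, ℚ)) 1 0
    rw [lra_i1_apply, lrih_toCsp_c]
  · show (lrih_toCsp (γ : SL(2, ℤ))).d = ((lra_i1 N q γ : lra_G N q) : SL(2, ℚ)) 1 1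
    rw [lra_i1_apply, lrih_toCsp_d]

theorem lra_toSL_i2 {N : ℕ} (q : ℕ) [Fact q.Prime] (γ : Gamma0 N) :
    lra_toSL (lrih_i2 q (γ : SL(2, ℤ))) = ((lra_i2 N q γ : lra_G N q) : SL(2, ℚ)) := by
  have hq : q ≠ 0 := (Fact.out : q.Prime).ne_zero
  obtain ⟨i00, i01, i10, i11⟩ := lra_i2_apply N q γ
  ext i j
  fin_cases i <;> fin_cases j
  · show (lrih_i2 q (γ : SL(2, ℤ))).a = ((lra_i2 N q γ : lra_G N q) : SL(2, ℚ)) 0 0
    rw [i00, lrih_i2_a hq]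
  · show (lrih_i2 q (γ : SL(2, ℤ))).b = ((lra_i2 N q γ : lra_G N q) : SL(2, ℚ)) 0 1
    rw [i01, lrih_i2_b hq]
  · show (lrih_i2 q (γ : SL(2, ℤ))).c = ((lra_i2 N q γ : lra_G N q) : SL(2, ℚ)) 1 0
    rw [i10, lrih_i2_c hq]
  · show (lrih_i2 q (γ : SL(2, ℤ))).d = ((lra_i2 N q γ : lra_G N q) : SL(2, ℚ)) 1 1
    rw [i11, lrih_i2_d hq]

/-! ### `lra_incl`, `lra_beta` are helper5's `lrm_incl`, `lrm_beta` -/

theorem lra_incl_eq_lrm (N q : ℕ) : lra_incl N q = lrm_incl N q := rfl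

theorem lra_beta_eq_lrm {N q : ℕ} [Fact q.Prime] (hqN : ¬ q ∣ N) : lra_beta N q = lrm_beta hqN := by
  have hq : (q : ℤ) ≠ 0 := by exact_mod_cast (Fact.out : q.Prime).ne_zero
  refine MonoidHom.ext fun g => ?_
  obtain ⟨a00, a01, a10, a11⟩ := lra_beta_apply N q g
  obtain ⟨m00, m01, m10, m11⟩ := lrm_beta_entries hqN g
  apply Subtype.ext
  ext i j
  fin_cases i <;> fin_cases j
  · exact a00.trans m00.symm
  · exact a01.trans m01.symm
  · exact mul_left_cancel₀ hq (a10.trans m10.symm)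
  · exact a11.trans m11.symm

/-! ### The seam of [IH-GLUE] -/

/-- **[AMALG]**, in the form requested by [IH-GLUE] -/
theorem lra_amalg_stmt : lrih_Amalg_stmt.{u} := by
  intro N q _ hqN V _ x y hxy
  have hc : ∀ g : Gamma0 (N * q), x (Additive.ofMul (lra_incl N q g)) +
      y (Additive.ofMul (lra_beta N q g)) = 0 := by
    intro g
    have h1 := DFunLike.congr_fun hxy (Additive.ofMul g)
    rw [lra_incl_eq_lrm, lra_beta_eq_lrm hqN]
    exact h1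
  obtain ⟨Φ0, ⟨hΦ1, hΦ2⟩, -⟩ := lra_extend_add hqN x y hc
  classical
  refine ⟨fun g => if h : lra_toSL g ∈ lra_G N q then Φ0 (Additive.ofMul ⟨lra_toSL g, h⟩) else 0,
    ?_, ?_, ?_⟩
  · intro g h hg hh
    have mg := lra_toSL_mem hg
    have mh := lra_toSL_mem hh
    have mgh : lra_toSL (g * h) ∈ lra_G N q := by
      rw [lra_toSL_mul]
      exact (lra_G N q).mul_mem mg mh
    show (if h' : lra_toSL (g * h) ∈ lra_G N q then Φ0 (Additive.ofMul ⟨lra_toSL (g * h), h'⟩)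
      else 0) = (if h' : lra_toSL g ∈ lra_G N q then Φ0 (Additive.ofMul ⟨lra_toSL g, h'⟩) else 0) +
      (if h' : lra_toSL h ∈ lra_G N q then Φ0 (Additive.ofMul ⟨lra_toSL h, h'⟩) else 0)
    rw [dif_pos mgh, dif_pos mg, dif_pos mh, ← map_add, ← ofMul_mul]
    congr 2
    exact Subtype.ext (lra_toSL_mul g h)
  · intro γ
    have hm : lra_toSL (lrih_toCsp (γ : SL(2, ℤ))) ∈ lra_G N q := by
      rw [lra_toSL_toCsp q γ]
      exact (lra_i1 N q γ).2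
    show (if h' : lra_toSL (lrih_toCsp (γ : SL(2, ℤ))) ∈ lra_G N q then
      Φ0 (Additive.ofMul ⟨lra_toSL (lrih_toCsp (γ : SL(2, ℤ))), h'⟩) else 0) = _
    rw [dif_pos hm, ← hΦ1 γ]
    congr 2
    exact Subtype.ext (lra_toSL_toCsp q γ)
  · intro γ
    have hm : lra_toSL (lrih_i2 q (γ : SL(2, ℤ))) ∈ lra_G N q := by
      rw [lra_toSL_i2 q γ]
      exact (lra_i2 N q γ).2
    show (if h' : lra_toSL (lrih_i2 q (γ : SL(2, ℤ))) ∈ lra_G N q then
      Φ0 (Additive.ofMul ⟨lra_toSL (lrih_i2 q (γ : SL(2, ℤ))), h'⟩) else 0) = _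
    rw [dif_pos hm, ← hΦ2 γ]
    congr 2
    exact Subtype.ext (lra_toSL_i2 q γ)

end Fermat.Agent.LR
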