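/-
LR node [AMALG], part 2 (injectivity).

The canonical map `Γ₀(N) *_{Γ₀(Nq)} Γ₀(N) → Γ₀(N)[1/q]` (Mathlib's `Monoid.PushoutI` of the diagram
`lra_incl, lra_beta : Γ₀(Nq) → Γ₀(N)`) is injective.  Proof: Mathlib's normal words, plus a `q`-adic
ping-pong on the columns of the product matrix.  Prefix `lra_`.
-/
import Mathlib
import Fermat.Agent.LR.AMALG.Core

set_option autoImplicit false

open CongruenceSubgroup Matrix.SpecialLinearGroup Monoid
open scoped MatrixGroups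

namespace Fermat.Agent.LR

/-! ### The diagram and the canonical map -/

/-- the (constant) family of the two factors -/
abbrev lra_Fam (N : ℕ) : Fin 2 → Type := fun _ => Gamma0 N

section
variable (N q : ℕ) [Fact q.Prime]

/-- the amalgamation diagram `Γ₀(N) ← Γ₀(Nq) → Γ₀(N)` -/
def lra_phi : ∀ i : Fin 2, Gamma0 (N * q) →* lra_Fam N i := ![lra_incl N q, lra_beta N q]

theorem lra_phi_injective : ∀ i, Function.Injective (lra_phi N q i) := by
  intro i
  fin_cases i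
  · exact lra_incl_injective N q
  · exact lra_beta_injective N q

/-- the two embeddings into `Γ₀(N)[1/q]` as a family -/
def lra_f : ∀ i : Fin 2, lra_Fam N i →* lra_G N q := ![lra_i1 N q, lra_i2 N q]

/-- the embedding of the base group `Γ₀(Nq)` -/
def lra_k : Gamma0 (N * q) →* lra_G N q := (lra_i1 N q).comp (lra_incl N q)

theorem lra_f_comp_phi (i : Fin 2) : (lra_f N q i).comp (lra_phi N q i) = lra_k N q := by
  fin_cases i
  · rfl
  · refine MonoidHom.ext fun g => ?_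
    exact (lra_i1_incl_eq_i2_beta N q g).symm

/-- the canonical map from the amalgam to `Γ₀(N)[1/q]` -/
def lra_lift : PushoutI (lra_phi N q) →* lra_G N q :=
  PushoutI.lift (lra_f N q) (lra_k N q) (lra_f_comp_phi N q)

theorem lra_lift_of (i : Fin 2) (g : lra_Fam N i) :
    lra_lift N q (PushoutI.of i g) = lra_f N q i g :=
  PushoutI.lift_of _ _ _ _

theorem lra_lift_base (g : Gamma0 (N * q)) :
    lra_lift N q (PushoutI.base (lra_phi N q) g) = lra_k N q g :=
  PushoutI.lift_base _ _ _ _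

end

/-! ### The `q`-adic ping-pong on column vectors -/

/-- vectors `(X / q^m, Y / q^m)` with `q ∤ Y` -/
def lra_C0 (q m : ℕ) (x y : ℚ) : Prop :=
  ∃ X Y : ℤ, x * (q : ℚ) ^ m = X ∧ y * (q : ℚ) ^ m = Y ∧ ¬ (q : ℤ) ∣ Y

/-- vectors `(X / q^m, Y / q^m)` with `q ∤ X`, `q ∣ Y` -/
def lra_C1 (q m : ℕ) (x y : ℚ) : Prop :=
  ∃ X Y : ℤ, x * (q : ℚ) ^ m = X ∧ y * (q : ℚ) ^ m = Y ∧ ¬ (q : ℤ) ∣ X ∧ (q : ℤ) ∣ Y

section
variable {N q : ℕ} [Fact q.Prime]

theorem lra_prime_int (q : ℕ) [Fact q.Prime] : Prime (q : ℤ) :=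
  Nat.prime_iff_prime_int.mp Fact.out

/-- a letter of `Γ₀(N) \ Γ₀(Nq)` (first factor) maps `C1(m)` into `C0(m)` -/
theorem lra_step1 (g : Gamma0 N) (hg : ¬ (q : ℤ) ∣ (g : SL(2, ℤ)) 1 0) {m : ℕ} {x y : ℚ}
    (h : lra_C1 q m x y) :
    lra_C0 q m ((lra_i1 N q g : SL(2, ℚ)) 0 0 * x + (lra_i1 N q g : SL(2, ℚ)) 0 1 * y)
      ((lra_i1 N q g : SL(2, ℚ)) 1 0 * x + (lra_i1 N q g : SL(2, ℚ)) 1 1 * y) := by
  obtain ⟨X, Y, hX, hY, hqX, hqY⟩ := h
  refine ⟨(g : SL(2, ℤ)) 0 0 * X + (g : SL(2, ℤ)) 0 1 * Y,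
    (g : SL(2, ℤ)) 1 0 * X + (g : SL(2, ℤ)) 1 1 * Y, ?_, ?_, ?_⟩
  · rw [lra_i1_apply, lra_i1_apply]
    push_cast
    rw [← hX, ← hY]
    ring
  · rw [lra_i1_apply, lra_i1_apply]
    push_cast
    rw [← hX, ← hY]
    ring
  · intro hdvd
    have h1 : (q : ℤ) ∣ (g : SL(2, ℤ)) 1 0 * X :=
      (dvd_add_left (Dvd.dvd.mul_left hqY _)).mp hdvd
    rcases (lra_prime_int q).dvd_or_dvd h1 with h2 | h2
    · exact hg h2
    · exact hqX h2

/-- a letter of the second factor outside the base group maps `C0(m)` into `C1(m + 1)` -/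
theorem lra_step2 (g : Gamma0 N) (hg : ¬ (q : ℤ) ∣ (g : SL(2, ℤ)) 0 1) {m : ℕ} {x y : ℚ}
    (h : lra_C0 q m x y) :
    lra_C1 q (m + 1) ((lra_i2 N q g : SL(2, ℚ)) 0 0 * x + (lra_i2 N q g : SL(2, ℚ)) 0 1 * y)
      ((lra_i2 N q g : SL(2, ℚ)) 1 0 * x + (lra_i2 N q g : SL(2, ℚ)) 1 1 * y) := by
  have hq : (q : ℚ) ≠ 0 := by exact_mod_cast (Fact.out : q.Prime).ne_zero
  obtain ⟨X, Y, hX, hY, hqY⟩ := h
  obtain ⟨h00, h01, h10, h11⟩ := lra_i2_apply N q g
  refine ⟨q * (g : SL(2, ℤ)) 0 0 * X + (g : SL(2, ℤ)) 0 1 * Y,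
    q * (q * (g : SL(2, ℤ)) 1 0 * X + (g : SL(2, ℤ)) 1 1 * Y), ?_, ?_, ?_, ?_⟩
  · rw [h00, h01]
    push_cast
    rw [← hX, ← hY, pow_succ]
    field_simp
  · rw [h10, h11]
    push_cast
    rw [← hX, ← hY, pow_succ]
    ring
  · intro hdvd
    have h1 : (q : ℤ) ∣ (g : SL(2, ℤ)) 0 1 * Y := by
      refine (dvd_add_right ?_).mp hdvd
      rw [mul_assoc]
      exact dvd_mul_right _ _
    rcases (lra_prime_int q).dvd_or_dvd h1 with h2 | h2
    · exact hg h2
    · exact hqY h2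
  · exact dvd_mul_right _ _

end

/-! ### Reduced words -/

section
variable {N q : ℕ} [Fact q.Prime]

/-- evaluation of a letter in `SL(2, ℚ)` -/
def lra_ev (N q : ℕ) [Fact q.Prime] (a : Σ i, lra_Fam N i) : SL(2, ℚ) :=
  ((lra_f N q a.1 a.2 : lra_G N q) : SL(2, ℚ))

theorem lra_ev_zero (g : Gamma0 N) :
    lra_ev N q (⟨0, g⟩ : Σ i, lra_Fam N i) = (lra_i1 N q g : SL(2, ℚ)) := rfl

theorem lra_ev_one (g : Gamma0 N) :
    lra_ev N q (⟨1, g⟩ : Σ i, lra_Fam N i) = (lra_i2 N q g : SL(2, ℚ)) := rfl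

theorem lra_phi_zero : lra_phi N q 0 = lra_incl N q := rfl

theorem lra_phi_one : lra_phi N q 1 = lra_beta N q := rfl

/-- the key invariant: some column of the matrix of a nonempty reduced word lies in the cone
determined by the first letter, at a level `m` with `1 ≤ m` unless the word is a single letter of
the first factor -/
theorem lra_word_col (hqN : ¬ q ∣ N) :
    ∀ (l : List (Σ i, lra_Fam N i)) (a : Σ i, lra_Fam N i),
      List.IsChain (fun x y : Σ i, lra_Fam N i => x.1 ≠ y.1) (a :: l) →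
      (∀ x ∈ a :: l, x.2 ∉ (lra_phi N q x.1).range) →
      ∃ (j : Fin 2) (m : ℕ),
        ((a.1 = 0 → lra_C0 q m ((((a :: l).map (lra_ev N q)).prod : SL(2, ℚ)) 0 j)
            ((((a :: l).map (lra_ev N q)).prod : SL(2, ℚ)) 1 j)) ∧
         (a.1 = 1 → lra_C1 q m ((((a :: l).map (lra_ev N q)).prod : SL(2, ℚ)) 0 j)
            ((((a :: l).map (lra_ev N q)).prod : SL(2, ℚ)) 1 j))) ∧
        (1 ≤ m ∨ (j = 0 ∧ a.1 = 0)) := by
  have hq : (q : ℚ) ≠ 0 := by exact_mod_cast (Fact.out : q.Prime).ne_zero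
  have h01 : (0 : Fin 2) ≠ 1 := by decide
  have h10 : (1 : Fin 2) ≠ 0 := by decide
  intro l
  induction l with
  | nil =>
    intro a _ hred
    obtain ⟨i, g⟩ := a
    have hi : i = 0 ∨ i = 1 := by fin_cases i <;> simp
    rcases hi with rfl | rfl
    · have hg : ¬ (q : ℤ) ∣ (g : SL(2, ℤ)) 1 0 := fun h =>
        hred ⟨0, g⟩ List.mem_cons_self ((lra_mem_range_incl hqN g).mpr h)
      refine ⟨0, 0, ⟨fun _ => ?_, fun h => absurd h h01⟩, Or.inr ⟨rfl, rfl⟩⟩
      rw [List.map_cons, List.map_nil, List.prod_cons, List.prod_nil, mul_one, lra_ev_zero]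
      refine ⟨(g : SL(2, ℤ)) 0 0, (g : SL(2, ℤ)) 1 0, ?_, ?_, hg⟩
      · rw [pow_zero, mul_one, lra_i1_apply]
      · rw [pow_zero, mul_one, lra_i1_apply]
    · have hg : ¬ (q : ℤ) ∣ (g : SL(2, ℤ)) 0 1 := fun h =>
        hred ⟨1, g⟩ List.mem_cons_self ((lra_mem_range_beta hqN g).mpr h)
      refine ⟨1, 1, ⟨fun h => absurd h h10, fun _ => ?_⟩, Or.inl le_rfl⟩
      rw [List.map_cons, List.map_nil, List.prod_cons, List.prod_nil, mul_one, lra_ev_one]
      obtain ⟨h00, h01, h10, h11⟩ := lra_i2_apply N q g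
      refine ⟨(g : SL(2, ℤ)) 0 1, q * (g : SL(2, ℤ)) 1 1, ?_, ?_, hg, dvd_mul_right _ _⟩
      · rw [h01, pow_one]
        field_simp
      · rw [h11, pow_one]
        push_cast
        ring
  | cons b l ih =>
    intro a hch hred
    rw [List.isChain_cons_cons] at hch
    obtain ⟨hab, hch'⟩ := hch
    obtain ⟨j, m, ⟨h0, h1⟩, hinv⟩ := ih b hch' (fun x hx => hred x (List.mem_cons_of_mem _ hx))
    have hM : (((a :: b :: l).map (lra_ev N q)).prod : SL(2, ℚ)) =
        lra_ev N q a * ((b :: l).map (lra_ev N q)).prod := by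
      rw [List.map_cons, List.prod_cons]
    obtain ⟨i, g⟩ := a
    have hi : i = 0 ∨ i = 1 := by fin_cases i <;> simp
    rcases hi with rfl | rfl
    · have hb : b.1 = 1 := Fin.eq_one_of_ne_zero _ (fun h => hab h.symm)
      have hg : ¬ (q : ℤ) ∣ (g : SL(2, ℤ)) 1 0 := fun h =>
        hred ⟨0, g⟩ List.mem_cons_self ((lra_mem_range_incl hqN g).mpr h)
      have hstep := lra_step1 g hg (h1 hb)
      refine ⟨j, m, ⟨fun _ => ?_, fun h => absurd h h01⟩, Or.inl ?_⟩
      · rw [hM, lra_mul_apply, lra_mul_apply, lra_ev_zero]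
        exact hstep
      · rcases hinv with h | ⟨_, h⟩
        · exact h
        · rw [hb] at h
          exact absurd h h10
    · have hb : b.1 = 0 := by
        by_contra hne
        exact hab (Fin.eq_one_of_ne_zero _ hne).symm
      have hg : ¬ (q : ℤ) ∣ (g : SL(2, ℤ)) 0 1 := fun h =>
        hred ⟨1, g⟩ List.mem_cons_self ((lra_mem_range_beta hqN g).mpr h)
      have hstep := lra_step2 g hg (h0 hb)
      refine ⟨j, m + 1, ⟨fun h => absurd h h10, fun _ => ?_⟩, Or.inl (Nat.le_add_left 1 m)⟩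
      rw [hM, lra_mul_apply, lra_mul_apply, lra_ev_one]
      exact hstep

/-- a matrix with a column as in `lra_word_col` is not in the image of the base group -/
theorem lra_not_base {M : SL(2, ℚ)} {t j : Fin 2} {m : ℕ}
    (h0 : t = 0 → lra_C0 q m (M 0 j) (M 1 j)) (h1 : t = 1 → lra_C1 q m (M 0 j) (M 1 j))
    (hinv : 1 ≤ m ∨ (j = 0 ∧ t = 0)) (g : Gamma0 (N * q)) :
    M ≠ ((lra_k N q g : lra_G N q) : SL(2, ℚ)) := by
  have hq : (q : ℚ) ≠ 0 := by exact_mod_cast (Fact.out : q.Prime).ne_zero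
  rintro rfl
  have hk : ∀ i j, ((lra_k N q g : lra_G N q) : SL(2, ℚ)) i j = (((g : SL(2, ℤ)) i j : ℤ) : ℚ) := by
    intro i j
    exact lra_i1_apply N q (lra_incl N q g) i j
  have ht : t = 0 ∨ t = 1 := by fin_cases t <;> simp
  rcases hinv with hm | ⟨rfl, rfl⟩
  · obtain ⟨m', rfl⟩ : ∃ m', m = m' + 1 := ⟨m - 1, by omega⟩
    rcases ht with rfl | rfl
    · obtain ⟨X, Y, _, hY, hqY⟩ := h0 rfl
      apply hqY
      rw [hk] at hY
      have : Y = q * ((g : SL(2, ℤ)) 1 j * (q : ℤ) ^ m') := by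
        have h2 : ((Y : ℤ) : ℚ) = ((q * ((g : SL(2, ℤ)) 1 j * (q : ℤ) ^ m') : ℤ) : ℚ) := by
          rw [← hY]
          push_cast
          ring
        exact_mod_cast h2
      rw [this]
      exact dvd_mul_right _ _
    · obtain ⟨X, Y, hX, _, hqX, _⟩ := h1 rfl
      apply hqX
      rw [hk] at hX
      have : X = q * ((g : SL(2, ℤ)) 0 j * (q : ℤ) ^ m') := by
        have h2 : ((X : ℤ) : ℚ) = ((q * ((g : SL(2, ℤ)) 0 j * (q : ℤ) ^ m') : ℤ) : ℚ) := by
          rw [← hX]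
          push_cast
          ring
        exact_mod_cast h2
      rw [this]
      exact dvd_mul_right _ _
  · obtain ⟨X, Y, _, hY, hqY⟩ := h0 rfl
    apply hqY
    rw [hk] at hY
    have : Y = (g : SL(2, ℤ)) 1 0 * (q : ℤ) ^ m := by
      have h2 : ((Y : ℤ) : ℚ) = (((g : SL(2, ℤ)) 1 0 * (q : ℤ) ^ m : ℤ) : ℚ) := by
        rw [← hY]
        push_cast
        ring
      exact_mod_cast h2
    rw [this]
    exact Dvd.dvd.mul_right (lra_dvd_q N q g) _

end

/-! ### Injectivity of the canonical map -/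

section
variable {N q : ℕ} [Fact q.Prime]

theorem lra_lift_word (l : List (Σ i, lra_Fam N i)) :
    ((lra_lift N q (PushoutI.ofCoprodI
      ((l.map fun a : Σ i, lra_Fam N i => (CoprodI.of a.2 : CoprodI (lra_Fam N))).prod)) :
        lra_G N q) : SL(2, ℚ)) = (l.map (lra_ev N q)).prod := by
  induction l with
  | nil => simp
  | cons a l ih =>
    rw [List.map_cons, List.prod_cons, map_mul, map_mul, Subgroup.coe_mul, ih, List.map_cons,
      List.prod_cons, PushoutI.ofCoprodI_of, lra_lift_of]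
    rfl

theorem lra_lift_injective (hqN : ¬ q ∣ N) : Function.Injective (lra_lift N q) := by
  classical
  rw [injective_iff_map_eq_one]
  intro x hx
  obtain ⟨d⟩ := PushoutI.NormalWord.transversal_nonempty (lra_phi N q) (lra_phi_injective N q)
  have hxw : ((PushoutI.NormalWord.equiv (d := d)) x).prod = x :=
    (PushoutI.NormalWord.equiv (d := d)).symm_apply_apply x
  generalize (PushoutI.NormalWord.equiv (d := d)) x = w at hxw
  -- the letters of a normal word are not in the base group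
  have hred : ∀ a ∈ w.toList, a.2 ∉ (lra_phi N q a.1).range := by
    intro a ha hmem
    have h1 : a.2 ∈ d.set a.1 := w.normalized a.1 a.2 ha
    have h2 : a.2 ≠ 1 := w.ne_one a ha
    have hc := (d.compl a.1).1
    have h3 := @hc ⟨⟨a.2, hmem⟩, ⟨1, d.one_mem a.1⟩⟩ ⟨⟨1, one_mem _⟩, ⟨a.2, h1⟩⟩ (by simp)
    have h4 := congrArg (fun z => (z.2 : lra_Fam N a.1)) h3
    exact h2 h4.symm
  have hval : ((lra_lift N q x : lra_G N q) : SL(2, ℚ)) =
      ((lra_k N q w.head : lra_G N q) : SL(2, ℚ)) * (w.toList.map (lra_ev N q)).prod := by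
    rw [← hxw, PushoutI.NormalWord.prod, map_mul, Subgroup.coe_mul, lra_lift_base,
      CoprodI.Word.prod, lra_lift_word]
  rw [hx, Subgroup.coe_one] at hval
  rcases hl : w.toList with _ | ⟨a, l⟩
  · rw [hl, List.map_nil, List.prod_nil, mul_one] at hval
    have h1 : lra_k N q w.head = 1 := Subtype.ext hval.symm
    have h2 : w.head = 1 := by
      apply lra_incl_injective N q
      apply lra_i1_injective N q
      rw [map_one, map_one]
      exact h1
    rw [← hxw, PushoutI.NormalWord.prod, h2, map_one, one_mul, CoprodI.Word.prod, hl]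
    simp
  · exfalso
    rw [hl] at hval
    obtain ⟨j, m, ⟨h0, h1⟩, hinv⟩ := lra_word_col hqN l a (hl ▸ w.chain_ne)
      (fun y hy => hred y (hl ▸ hy))
    refine lra_not_base h0 h1 hinv (w.head)⁻¹ ?_
    rw [map_inv, Subgroup.coe_inv]
    exact eq_inv_of_mul_eq_one_right hval.symm

end

end Fermat.Agent.LR
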